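import Fermat.Prelude.Def_ModularCurve_ArithmeticGalois
import Mathlib

/-!
# Torsion divisor classes of `JZero N` have finite level
(helper571, piece FINLEVEL of the S29 route)

Every element `f` of the function field `laurentBaseChange ℚ̄ F₀ ⊆ ℚ̄((q))` has its coefficients
"in a finite extension": it is fixed by `Gal(ℚ̄/L)` for some finite `L/ℚ`
(`seriesFiniteLevel_of_mem`).  If `n • x = 0` in `Pic0`, `n ≠ 0`, write `x = [D]`,
`n D = div f`; every `σ` fixing `f` fixes `n D`, hence `D` (divisors are torsion-free).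
So the stabiliser of a torsion class contains `Gal(ℚ̄/L)` for a finite (even finite normal) `L`.
-/

set_option autoImplicit false
set_option linter.style.haveILetI false

noncomputable section

namespace Fermat.Agent.S29.H571

open AlgebraicCurve ModularCurve IntermediateField

/-- `f` is fixed coefficientwise by `Gal(ℚ̄/L)` for some finite `L/ℚ`. -/
def SeriesFiniteLevel (f : LaurentSeries (AlgebraicClosure ℚ)) : Prop :=
  ∃ L : IntermediateField ℚ (AlgebraicClosure ℚ), FiniteDimensional ℚ L ∧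
    ∀ σ : AlgebraicClosure ℚ ≃ₐ[ℚ] AlgebraicClosure ℚ, (∀ a ∈ L, σ a = a) →
      coeffMap (σ : AlgebraicClosure ℚ →+* AlgebraicClosure ℚ) f = f

theorem SeriesFiniteLevel.binary {f g h : LaurentSeries (AlgebraicClosure ℚ)}
    (hf : SeriesFiniteLevel f) (hg : SeriesFiniteLevel g)
    (H : ∀ σ : AlgebraicClosure ℚ ≃ₐ[ℚ] AlgebraicClosure ℚ,
      coeffMap (σ : AlgebraicClosure ℚ →+* AlgebraicClosure ℚ) f = f →
      coeffMap (σ : AlgebraicClosure ℚ →+* AlgebraicClosure ℚ) g = g →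
      coeffMap (σ : AlgebraicClosure ℚ →+* AlgebraicClosure ℚ) h = h) :
    SeriesFiniteLevel h := by
  obtain ⟨L₁, hL₁, h₁⟩ := hf
  obtain ⟨L₂, hL₂, h₂⟩ := hg
  refine ⟨L₁ ⊔ L₂, inferInstance, fun σ hσ => H σ (h₁ σ fun a ha => hσ a ?_)
    (h₂ σ fun a ha => hσ a ?_)⟩
  · exact (le_sup_left : L₁ ≤ L₁ ⊔ L₂) ha
  · exact (le_sup_right : L₂ ≤ L₁ ⊔ L₂) ha

theorem SeriesFiniteLevel.unary {f h : LaurentSeries (AlgebraicClosure ℚ)}
    (hf : SeriesFiniteLevel f)
    (H : ∀ σ : AlgebraicClosure ℚ ≃ₐ[ℚ] AlgebraicClosure ℚ,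
      coeffMap (σ : AlgebraicClosure ℚ →+* AlgebraicClosure ℚ) f = f →
      coeffMap (σ : AlgebraicClosure ℚ →+* AlgebraicClosure ℚ) h = h) :
    SeriesFiniteLevel h :=
  hf.binary hf fun σ h₁ _ => H σ h₁

theorem seriesFiniteLevel_of_mem {F₀ : IntermediateField ℚ (LaurentSeries ℚ)}
    {f : LaurentSeries (AlgebraicClosure ℚ)}
    (hf : f ∈ laurentBaseChange (AlgebraicClosure ℚ) F₀) : SeriesFiniteLevel f := by
  rw [mem_laurentBaseChange_iff] at hf
  induction hf using Subfield.closure_induction with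
  | mem y hy =>
      rcases hy with ⟨a, rfl⟩ | ⟨z, _, rfl⟩
      · haveI : Algebra.IsAlgebraic ℚ (AlgebraicClosure ℚ) := AlgebraicClosure.isAlgebraic ℚ
        have ha : IsIntegral ℚ a := (Algebra.IsAlgebraic.isAlgebraic a).isIntegral
        refine ⟨ℚ⟮a⟯, IntermediateField.adjoin.finiteDimensional ha, fun σ hσ => ?_⟩
        rw [coeffMap_algebraMap]
        congr 1
        exact hσ a (IntermediateField.mem_adjoin_simple_self ℚ a)
      · exact ⟨⊥, inferInstance, fun σ _ => coeffMap_coeffEmb σ z⟩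
  | one => exact ⟨⊥, inferInstance, fun σ _ => map_one _⟩
  | add x y _ _ hx hy =>
      exact hx.binary hy fun σ h₁ h₂ => by rw [map_add, h₁, h₂]
  | neg x _ hx => exact hx.unary fun σ h₁ => by rw [map_neg, h₁]
  | inv x _ hx => exact hx.unary fun σ h₁ => by rw [map_inv₀, h₁]
  | mul x y _ _ hx hy =>
      exact hx.binary hy fun σ h₁ h₂ => by rw [map_mul, h₁, h₂]

section Pic

variable (F₀ : IntermediateField ℚ (LaurentSeries ℚ))

/-- A Galois element fixing the function `f` with `n D = div f`, `n ≠ 0`, fixes the class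
of `D`. -/
theorem smul_mk_eq_of_fixes (σ : AlgebraicClosure ℚ ≃ₐ[ℚ] AlgebraicClosure ℚ)
    (D : Divisor.degZero (K := AlgebraicClosure ℚ)
      (F := laurentBaseChange (AlgebraicClosure ℚ) F₀))
    {n : ℤ} (hn : n ≠ 0) (f : laurentBaseChange (AlgebraicClosure ℚ) F₀)
    (hD : ∀ v : Place (AlgebraicClosure ℚ) (laurentBaseChange (AlgebraicClosure ℚ) F₀),
      n * (D : Divisor _ _) v = v.ord f)
    (hσ : coeffMap (σ : AlgebraicClosure ℚ →+* AlgebraicClosure ℚ)
      (f : LaurentSeries (AlgebraicClosure ℚ)) = f) :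
    σ • (Pic0.mk D) = Pic0.mk D := by
  set g := arithmeticGalois F₀ σ with hg
  have hgf : g • f = f := Subtype.ext (by rw [coe_arithmeticGalois_smul, hσ])
  have hgf' : g⁻¹ • f = f := by
    conv_lhs => rw [← hgf]
    exact inv_smul_smul g f
  rw [galois_smul_pic0_def, SemilinearAut.pic0_smul_mk]
  refine congrArg Pic0.mk (Subtype.ext ?_)
  rw [SemilinearAut.coe_degZeroSMulHom]
  ext w
  rw [SemilinearAut.divisor_smul_apply]
  have h1 := hD (g⁻¹ • w)
  have h2 := hD w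
  have h3 : (g⁻¹ • w).ord f = w.ord f := by
    have := SemilinearAut.ord_smul g⁻¹ w f
    rwa [hgf'] at this
  rw [h3, ← h2] at h1
  exact mul_left_cancel₀ hn h1

/-- **FINLEVEL.** A torsion class of `Pic0` of a function field `laurentBaseChange ℚ̄ F₀` is fixed
by `Gal(ℚ̄/L)` for some finite extension `L/ℚ`. -/
theorem exists_finiteLevel_of_zsmul_eq_zero
    (x : Pic0 (AlgebraicClosure ℚ) (laurentBaseChange (AlgebraicClosure ℚ) F₀))
    {n : ℤ} (hn : n ≠ 0) (hx : n • x = 0) :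
    ∃ L : IntermediateField ℚ (AlgebraicClosure ℚ), FiniteDimensional ℚ L ∧
      ∀ σ : AlgebraicClosure ℚ ≃ₐ[ℚ] AlgebraicClosure ℚ, (∀ a ∈ L, σ a = a) → σ • x = x := by
  obtain ⟨D, rfl⟩ := Pic0.mk_surjective x
  have h0 : Pic0.mk (n • D) = 0 := by
    rw [← hx]
    exact map_zsmul (QuotientAddGroup.mk' _) n D
  have h1 : ((n • D : Divisor.degZero (K := AlgebraicClosure ℚ)
      (F := laurentBaseChange (AlgebraicClosure ℚ) F₀)) : Divisor _ _)
      ∈ Divisor.principal (K := AlgebraicClosure ℚ)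
        (F := laurentBaseChange (AlgebraicClosure ℚ) F₀) := by
    have := (QuotientAddGroup.eq_zero_iff _).mp h0
    exact AddSubgroup.mem_addSubgroupOf.mp this
  obtain ⟨f, -, hf⟩ := h1
  obtain ⟨L, hL, hLσ⟩ := seriesFiniteLevel_of_mem (F₀ := F₀) f.2
  refine ⟨L, hL, fun σ hσ => smul_mk_eq_of_fixes F₀ σ D hn f (fun v => ?_) (hLσ σ hσ)⟩
  rw [← hf v]
  simp

/-- Normal version of FINLEVEL: the finite extension can be taken normal over `ℚ`. -/
theorem exists_normal_finiteLevel_of_zsmul_eq_zero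
    (x : Pic0 (AlgebraicClosure ℚ) (laurentBaseChange (AlgebraicClosure ℚ) F₀))
    {n : ℤ} (hn : n ≠ 0) (hx : n • x = 0) :
    ∃ L : IntermediateField ℚ (AlgebraicClosure ℚ), FiniteDimensional ℚ L ∧ Normal ℚ L ∧
      ∀ σ : AlgebraicClosure ℚ ≃ₐ[ℚ] AlgebraicClosure ℚ, (∀ a ∈ L, σ a = a) → σ • x = x := by
  obtain ⟨L, hL, h⟩ := exists_finiteLevel_of_zsmul_eq_zero F₀ x hn hx
  haveI : Algebra.IsAlgebraic ℚ (AlgebraicClosure ℚ) := AlgebraicClosure.isAlgebraic ℚ
  haveI : IsAlgClosure ℚ (AlgebraicClosure ℚ) := ⟨inferInstance, inferInstance⟩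
  haveI : Normal ℚ (AlgebraicClosure ℚ) := IsAlgClosure.normal ℚ (AlgebraicClosure ℚ)
  refine ⟨IntermediateField.normalClosure ℚ L (AlgebraicClosure ℚ),
    normalClosure.is_finiteDimensional ℚ L (AlgebraicClosure ℚ),
    normalClosure.normal ℚ L (AlgebraicClosure ℚ), fun σ hσ => h σ fun a ha => hσ a ?_⟩
  exact IntermediateField.le_normalClosure L ha

/-- Elements of a normal intermediate field stay in it under every automorphism. -/
theorem map_mem_of_normal (L : IntermediateField ℚ (AlgebraicClosure ℚ)) [Normal ℚ L]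
    (τ : AlgebraicClosure ℚ ≃ₐ[ℚ] AlgebraicClosure ℚ) {a : AlgebraicClosure ℚ} (ha : a ∈ L) :
    τ a ∈ L := by
  haveI : Algebra.IsAlgebraic ℚ (AlgebraicClosure ℚ) := AlgebraicClosure.isAlgebraic ℚ
  haveI : IsAlgClosure ℚ (AlgebraicClosure ℚ) := ⟨inferInstance, inferInstance⟩
  haveI : Normal ℚ (AlgebraicClosure ℚ) := IsAlgClosure.normal ℚ (AlgebraicClosure ℚ)
  exact (IntermediateField.normal_iff_forall_map_le'.mp (inferInstance : Normal ℚ L)) τ
    ⟨a, ha, rfl⟩

/-- If `σ` fixes a normal `L` pointwise, so does every conjugate `τ⁻¹ σ τ`. -/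
theorem conj_fixes_of_normal (L : IntermediateField ℚ (AlgebraicClosure ℚ)) [Normal ℚ L]
    (σ τ : AlgebraicClosure ℚ ≃ₐ[ℚ] AlgebraicClosure ℚ) (hσ : ∀ a ∈ L, σ a = a) :
    ∀ a ∈ L, (τ⁻¹ * σ * τ) a = a := by
  intro a ha
  show τ⁻¹ (σ (τ a)) = a
  rw [hσ (τ a) (map_mem_of_normal L τ ha)]
  exact τ.symm_apply_apply a

end Pic

end Fermat.Agent.S29.H571
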