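import Mathlib
import Fermat.Agent.S29.H571.HeckeGalois

/-!
# The Hecke operators on the `p`-torsion of `JZero N` (helper571, S29 route)

`heckeTors N p ℓ : Module.End (ZMod p) (JZero N)[p]`, its commutation with the Galois
representation `JZero.torsionGaloisRep N p`, and a general base-change lemma for quadratic
relations.
-/

set_option autoImplicit false
set_option linter.style.haveILetI false

noncomputable section

namespace Fermat.Agent.S29.H571

open AlgebraicCurve ModularCurve TensorProduct

section GeneralBaseChange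

variable {R A M : Type*} [CommRing R] [Ring A] [Algebra R A] [AddCommGroup M] [Module R M]

/-- A quadratic relation `f² - t f + n = 0` is preserved by base change. -/
theorem baseChange_quadratic (f t : Module.End R M) (n : ℕ)
    (h : ∀ x : M, f (f x) - t (f x) + n • x = 0) (w : A ⊗[R] M) :
    f.baseChange A (f.baseChange A w) - t.baseChange A (f.baseChange A w) + (n : A) • w = 0 := by
  induction w using TensorProduct.induction_on with
  | zero => simp
  | tmul c x =>
    rw [LinearMap.baseChange_tmul, LinearMap.baseChange_tmul, LinearMap.baseChange_tmul,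
      Nat.cast_smul_eq_nsmul A n (c ⊗ₜ[R] x), ← TensorProduct.tmul_sub,
      ← TensorProduct.tmul_smul n c x, ← TensorProduct.tmul_add, h x, TensorProduct.tmul_zero]
  | add w₁ w₂ h₁ h₂ =>
    have e : ∀ a b c d e f : A ⊗[R] M,
        (a + b) - (c + d) + (e + f) = (a - c + e) + (b - d + f) := by
      intros; abel
    rw [map_add, map_add, map_add, smul_add, e, h₁, h₂, add_zero]

end GeneralBaseChange

section Torsion

variable (N : ℕ) [NeZero N] (p : ℕ)

/-- The `p`-torsion of `JZero N`, as a `ZMod p`-module (Prelude structure). -/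
abbrev JTors : Type :=
  ↥(Pic0.torsion (AlgebraicClosure ℚ) (modularFunctionFieldBar N) p)

theorem heckeOperatorBar_mem_torsion (ℓ : Nat.Primes) {x : JZero N}
    (hx : x ∈ Pic0.torsion (AlgebraicClosure ℚ) (modularFunctionFieldBar N) p) :
    heckeOperatorBar N ℓ x ∈ Pic0.torsion (AlgebraicClosure ℚ) (modularFunctionFieldBar N) p := by
  rw [Pic0.mem_torsion] at hx ⊢
  rw [← map_zsmul, hx, map_zero]

/-- The Hecke operator `T_ℓ` on the `p`-torsion of `JZero N`, as an additive map. -/
def heckeTorsAdd (ℓ : Nat.Primes) : JTors N p →+ JTors N p where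
  toFun x := ⟨heckeOperatorBar N ℓ (x : JZero N), heckeOperatorBar_mem_torsion N p ℓ x.2⟩
  map_zero' := Subtype.ext (by simp)
  map_add' x y := Subtype.ext (by simp)

/-- The Hecke operator `T_ℓ` on the `p`-torsion of `JZero N`, `ZMod p`-linear. -/
def heckeTors (ℓ : Nat.Primes) : Module.End (ZMod p) (JTors N p) :=
  AddMonoidHom.toZModLinearMap p (heckeTorsAdd N p ℓ)

@[simp]
theorem coe_heckeTors_apply (ℓ : Nat.Primes) (x : JTors N p) :
    ((heckeTors N p ℓ x : JTors N p) : JZero N) = heckeOperatorBar N ℓ (x : JZero N) := rfl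

/-- Extension of `heckeTors` to all natural numbers (zero at non-primes). -/
def heckeTorsNat (ℓ : ℕ) : Module.End (ZMod p) (JTors N p) :=
  if h : ℓ.Prime then heckeTors N p ⟨ℓ, h⟩ else 0

theorem heckeTorsNat_of_prime {ℓ : ℕ} (h : ℓ.Prime) :
    heckeTorsNat N p ℓ = heckeTors N p ⟨ℓ, h⟩ := dif_pos h

theorem heckeTors_comm_galois (ℓ : Nat.Primes)
    (σ : AlgebraicClosure ℚ ≃ₐ[ℚ] AlgebraicClosure ℚ) :
    heckeTors N p ℓ * JZero.torsionGaloisRep N p σ
      = JZero.torsionGaloisRep N p σ * heckeTors N p ℓ := by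
  refine LinearMap.ext fun x => Subtype.ext ?_
  show heckeOperatorBar N ℓ (σ • (x : JZero N)) = σ • heckeOperatorBar N ℓ (x : JZero N)
  exact heckeOperatorBar_smul N ℓ σ x

theorem heckeTorsNat_comm_galois (ℓ : ℕ)
    (σ : AlgebraicClosure ℚ ≃ₐ[ℚ] AlgebraicClosure ℚ) :
    heckeTorsNat N p ℓ * JZero.torsionGaloisRep N p σ
      = JZero.torsionGaloisRep N p σ * heckeTorsNat N p ℓ := by
  unfold heckeTorsNat
  split_ifs with h
  · exact heckeTors_comm_galois N p ⟨ℓ, h⟩ σ
  · simp

end Torsion

end Fermat.Agent.S29.H571
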