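import Mathlib
import Fermat.Prelude.Def_GaloisRep_Residual
import Fermat.Agent.S29.H571.FiniteLevel

/-!
# MODGLUE (abstract part): one eigenvector suffices
(helper571, S29 route)

`hasEigenModule_of_eigenvector`: let `V` be an `F`-vector space with a linear `G_ℚ`-action `ρ`
and endomorphisms `T ℓ` commuting with `ρ`, such that

* every vector of `V` is fixed by `Gal(ℚ̄/L)` for some finite normal `L/ℚ` (pointwise finite level),
* inertia at `ℓ ∤ N p` acts trivially,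
* every Frobenius `σ` at `ℓ ∤ N p` satisfies `σ² - T_ℓ σ + ℓ = 0` on `V`,
* there is ONE nonzero `v` with `T_ℓ v = ψ(a_ℓ) v` for all primes `ℓ ∤ N p`.

Then the `F`-span `M` of the `G_ℚ`-orbit of `v` is a nonzero `F[G_ℚ]`-module of finite level,
unramified outside `N p`, on which every Frobenius at `ℓ ∤ N p` satisfies
`σ² - ψ(a_ℓ) σ + ℓ = 0`.  The conclusion is verbatim the body of
`Fermat.Agent.S29.H29.HasEigenModule N g p F ψ` (helper29's glue interface).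
No finiteness of `V` is needed.
-/

set_option autoImplicit false
set_option linter.style.haveILetI false

noncomputable section

namespace Fermat.Agent.S29.H571

section Abstract

variable {F : Type} [Field F] {V : Type} [AddCommGroup V] [Module F V]
variable (ρ : (AlgebraicClosure ℚ ≃ₐ[ℚ] AlgebraicClosure ℚ) →* Module.End F V) (v : V)

/-- The `F`-span of the Galois orbit of `v`. -/
def orbitSpan : Submodule F V :=
  Submodule.span F (Set.range fun σ : AlgebraicClosure ℚ ≃ₐ[ℚ] AlgebraicClosure ℚ => ρ σ v)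

theorem self_mem_orbitSpan : v ∈ orbitSpan ρ v :=
  Submodule.subset_span ⟨1, by simp⟩

theorem map_mem_orbitSpan (τ : AlgebraicClosure ℚ ≃ₐ[ℚ] AlgebraicClosure ℚ) {w : V}
    (hw : w ∈ orbitSpan ρ v) : ρ τ w ∈ orbitSpan ρ v := by
  induction hw using Submodule.span_induction with
  | mem x hx =>
    obtain ⟨σ, rfl⟩ := hx
    refine Submodule.subset_span ⟨τ * σ, ?_⟩
    simp [map_mul]
  | zero => simp
  | add x y _ _ hx hy => rw [map_add]; exact add_mem hx hy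
  | smul c x _ hx => rw [map_smul]; exact Submodule.smul_mem _ c hx

/-- The Galois action on the orbit span. -/
def orbitRep :
    (AlgebraicClosure ℚ ≃ₐ[ℚ] AlgebraicClosure ℚ) →* Module.End F (orbitSpan ρ v) where
  toFun τ := (ρ τ).restrict fun _ hw => map_mem_orbitSpan ρ v τ hw
  map_one' := by
    ext w
    simp
  map_mul' σ τ := by
    ext w
    simp [map_mul]

@[simp]
theorem coe_orbitRep_apply (τ : AlgebraicClosure ℚ ≃ₐ[ℚ] AlgebraicClosure ℚ)
    (w : orbitSpan ρ v) : ((orbitRep ρ v τ w : orbitSpan ρ v) : V) = ρ τ (w : V) := rfl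

/-- An endomorphism commuting with `ρ` and having `v` as eigenvector acts as a scalar on the
orbit span. -/
theorem eq_smul_of_mem_orbitSpan (T : Module.End F V)
    (hT : ∀ σ, T * ρ σ = ρ σ * T) {c : F} (hv : T v = c • v) {w : V}
    (hw : w ∈ orbitSpan ρ v) : T w = c • w := by
  induction hw using Submodule.span_induction with
  | mem x hx =>
    obtain ⟨σ, rfl⟩ := hx
    have h1 : T (ρ σ v) = ρ σ (T v) := by
      have := congrArg (fun f : Module.End F V => f v) (hT σ)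
      simpa using this
    simp only [h1, hv, map_smul]
  | zero => simp
  | add x y _ _ hx hy => rw [map_add, hx, hy, smul_add]
  | smul d x _ hx => rw [map_smul, hx, smul_comm]

/-- If `v` is fixed by `Gal(ℚ̄/L)` with `L` normal, then so is every vector of its orbit span. -/
theorem fixes_orbitSpan_of_normal (L : IntermediateField ℚ (AlgebraicClosure ℚ)) [Normal ℚ L]
    (hL : ∀ σ : AlgebraicClosure ℚ ≃ₐ[ℚ] AlgebraicClosure ℚ, (∀ a ∈ L, σ a = a) → ρ σ v = v)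
    (σ : AlgebraicClosure ℚ ≃ₐ[ℚ] AlgebraicClosure ℚ) (hσ : ∀ a ∈ L, σ a = a) {w : V}
    (hw : w ∈ orbitSpan ρ v) : ρ σ w = w := by
  induction hw using Submodule.span_induction with
  | mem x hx =>
    obtain ⟨τ, rfl⟩ := hx
    have h1 : σ * τ = τ * (τ⁻¹ * σ * τ) := by group
    have h2 : ρ (τ⁻¹ * σ * τ) v = v := hL _ (conj_fixes_of_normal L σ τ hσ)
    calc ρ σ (ρ τ v) = ρ (σ * τ) v := by simp [map_mul]
      _ = ρ τ (ρ (τ⁻¹ * σ * τ) v) := by rw [h1]; simp [map_mul]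
      _ = ρ τ v := by rw [h2]
  | zero => simp
  | add x y _ _ hx hy => rw [map_add, hx, hy]
  | smul d x _ hx => rw [map_smul, hx]

variable {N : ℕ} (g : CuspForm (CongruenceSubgroup.Gamma0 N) 2) (p : ℕ)
  (ψ : ↥(integralClosure ℤ ℂ) →+* F)

/-- **MODGLUE, abstract form.**  See the module docstring. -/
theorem hasEigenModule_of_eigenvector
    (T : ℕ → Module.End F V)
    (hTρ : ∀ ℓ σ, T ℓ * ρ σ = ρ σ * T ℓ)
    (hlevel : ∃ L : IntermediateField ℚ (AlgebraicClosure ℚ),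
      FiniteDimensional ℚ L ∧ Normal ℚ L ∧
        ∀ σ : AlgebraicClosure ℚ ≃ₐ[ℚ] AlgebraicClosure ℚ, (∀ a ∈ L, σ a = a) → ρ σ v = v)
    (hunr : ∀ ℓ : ℕ, ℓ.Prime → ¬ ℓ ∣ N * p →
      ∀ A : ValuationSubring (AlgebraicClosure ℚ), A.LiesOverPrime ℓ →
        ∀ σ ∈ A.inertiaSubgroupIn ℚ, ∀ w ∈ orbitSpan ρ v, ρ σ w = w)
    (hfrob : ∀ ℓ : ℕ, ℓ.Prime → ¬ ℓ ∣ N * p →
      ∀ A : ValuationSubring (AlgebraicClosure ℚ), A.LiesOverPrime ℓ →
        ∀ σ : AlgebraicClosure ℚ ≃ₐ[ℚ] AlgebraicClosure ℚ, A.IsFrobeniusAt σ ℓ →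
          ∀ w ∈ orbitSpan ρ v, ρ σ (ρ σ w) - T ℓ (ρ σ w) + (ℓ : F) • w = 0)
    (hv : v ≠ 0)
    (heig : ∀ ℓ : ℕ, ℓ.Prime → ¬ ℓ ∣ N * p →
      ∃ a : ↥(integralClosure ℤ ℂ), (a : ℂ) = ModularFormClass.qCoeff g ℓ ∧
        T ℓ v = ψ a • v) :
    ∃ (M : Type) (_ : AddCommGroup M) (_ : Module F M)
      (ρ' : (AlgebraicClosure ℚ ≃ₐ[ℚ] AlgebraicClosure ℚ) →* Module.End F M),
      Nontrivial M ∧ GaloisFactorsThroughFiniteLevel ρ' ∧
      ∀ ℓ : ℕ, ℓ.Prime → ¬ ℓ ∣ N * p →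
        ∃ a : ↥(integralClosure ℤ ℂ), (a : ℂ) = ModularFormClass.qCoeff g ℓ ∧
          ∀ A : ValuationSubring (AlgebraicClosure ℚ), A.LiesOverPrime ℓ →
            (∀ σ ∈ A.inertiaSubgroupIn ℚ, ρ' σ = 1) ∧
            (∀ σ : AlgebraicClosure ℚ ≃ₐ[ℚ] AlgebraicClosure ℚ, A.IsFrobeniusAt σ ℓ →
              ρ' σ * ρ' σ - ψ a • ρ' σ + (ℓ : F) • (1 : Module.End F M) = 0) := by
  refine ⟨orbitSpan ρ v, inferInstance, inferInstance, orbitRep ρ v, ?_, ?_, ?_⟩
  · exact ⟨⟨⟨v, self_mem_orbitSpan ρ v⟩, 0, fun h => hv (congrArg Subtype.val h)⟩⟩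
  · obtain ⟨L, hfin, hnorm, hL⟩ := hlevel
    refine ⟨L, hfin, fun σ hσ => ?_⟩
    ext w
    exact fixes_orbitSpan_of_normal ρ v L hL σ hσ w.2
  · intro ℓ hℓ hℓN
    obtain ⟨a, ha, hTa⟩ := heig ℓ hℓ hℓN
    refine ⟨a, ha, fun A hA => ⟨fun σ hσ => ?_, fun σ hσ => ?_⟩⟩
    · ext w
      exact hunr ℓ hℓ hℓN A hA σ hσ w w.2
    · ext w
      have h1 := hfrob ℓ hℓ hℓN A hA σ hσ w w.2
      have h2 : T ℓ (ρ σ w) = ψ a • ρ σ w :=
        eq_smul_of_mem_orbitSpan ρ v (T ℓ) (hTρ ℓ) hTa (map_mem_orbitSpan ρ v σ w.2)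
      rw [h2] at h1
      simpa using h1

end Abstract

end Fermat.Agent.S29.H571
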