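import Mathlib
import Fermat.Agent.S29.H571.ModGlue
import Fermat.Agent.S29.H571.HeckeTors

/-!
# MODGLUE (concrete part): `V = F ⊗[ZMod p] JZero N [p]`
(helper571, S29 route)

`hasEigenModule_of_JZero`: the body of helper29's `HasEigenModule N g p F ψ` follows from

* `hunr`  : inertia at `ℓ ∤ N p` acts trivially on the `p`-torsion of `JZero N`;
* `hfrob` : every Frobenius `σ` at `ℓ ∤ N p` satisfies `σ² x - T_ℓ (σ x) + ℓ x = 0` on the
            `p`-torsion of `JZero N` (`T_ℓ = heckeOperatorBar N ℓ`);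
  (both are what the proof of S37 produces: `RedData` + injectivity on torsion)
* `heig`  : ONE nonzero `v ∈ F ⊗[ZMod p] JZero N [p]` with `(1 ⊗ T_ℓ) v = ψ(a_ℓ) v` for all
            primes `ℓ ∤ N p`.

Finite level is automatic (`FiniteLevel.lean`), Galois-equivariance of `T_ℓ` is
`HeckeGalois.lean`.  No finiteness of `JZero N [p]` is used.
-/

set_option autoImplicit false
set_option linter.style.haveILetI false

noncomputable section

namespace Fermat.Agent.S29.H571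

open AlgebraicCurve ModularCurve TensorProduct

section BaseChange

variable (N : ℕ) [NeZero N] (p : ℕ) (F : Type) [Field F] [Algebra (ZMod p) F]

/-- The Galois representation on `F ⊗[ZMod p] JZero N [p]`. -/
def torsRepBC :
    (AlgebraicClosure ℚ ≃ₐ[ℚ] AlgebraicClosure ℚ) →*
      Module.End F (F ⊗[ZMod p] JTors N p) where
  toFun σ := (JZero.torsionGaloisRep N p σ).baseChange F
  map_one' := by rw [map_one, LinearMap.baseChange_one]
  map_mul' σ τ := by rw [map_mul, LinearMap.baseChange_mul]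

omit [NeZero N] in
@[simp]
theorem torsRepBC_apply (σ : AlgebraicClosure ℚ ≃ₐ[ℚ] AlgebraicClosure ℚ) :
    torsRepBC N p F σ = (JZero.torsionGaloisRep N p σ).baseChange F := rfl

omit [NeZero N] in
/-- Pointwise finite level on `F ⊗[ZMod p] JZero N [p]`, with normal `L`. -/
theorem exists_normal_finiteLevel_tensor (hp : p ≠ 0) (v : F ⊗[ZMod p] JTors N p) :
    ∃ L : IntermediateField ℚ (AlgebraicClosure ℚ), FiniteDimensional ℚ L ∧ Normal ℚ L ∧
      ∀ σ : AlgebraicClosure ℚ ≃ₐ[ℚ] AlgebraicClosure ℚ, (∀ a ∈ L, σ a = a) →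
        torsRepBC N p F σ v = v := by
  induction v using TensorProduct.induction_on with
  | zero =>
    refine ⟨⊥, inferInstance, ?_, fun σ _ => map_zero _⟩
    exact (IntermediateField.botEquiv ℚ (AlgebraicClosure ℚ)).symm.transfer_normal.mp
      inferInstance
  | tmul c x =>
    have hx : ((p : ℕ) : ℤ) • (x : JZero N) = 0 := Pic0.mem_torsion.mp x.2
    obtain ⟨L, hfin, hnorm, hL⟩ :=
      exists_normal_finiteLevel_of_zsmul_eq_zero (modularFunctionFieldFull N) (x : JZero N)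
        (by exact_mod_cast hp) hx
    refine ⟨L, hfin, hnorm, fun σ hσ => ?_⟩
    rw [torsRepBC_apply, LinearMap.baseChange_tmul]
    congr 1
    apply Subtype.ext
    rw [JZero.coe_torsionGaloisRep_apply]
    exact hL σ hσ
  | add v w hv hw =>
    obtain ⟨L₁, hfin₁, hnorm₁, hL₁⟩ := hv
    obtain ⟨L₂, hfin₂, hnorm₂, hL₂⟩ := hw
    refine ⟨L₁ ⊔ L₂, inferInstance, @IntermediateField.normal_sup ℚ (AlgebraicClosure ℚ) _ _ _ L₁ L₂ hnorm₁ hnorm₂, fun σ hσ => ?_⟩
    rw [map_add, hL₁ σ fun a ha => hσ a ((le_sup_left : L₁ ≤ L₁ ⊔ L₂) ha),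
      hL₂ σ fun a ha => hσ a ((le_sup_right : L₂ ≤ L₁ ⊔ L₂) ha)]

/-- The base-changed Hecke operators commute with the base-changed Galois action. -/
theorem heckeBC_comm (ℓ : ℕ) (σ : AlgebraicClosure ℚ ≃ₐ[ℚ] AlgebraicClosure ℚ) :
    (heckeTorsNat N p ℓ).baseChange F * torsRepBC N p F σ
      = torsRepBC N p F σ * (heckeTorsNat N p ℓ).baseChange F := by
  rw [torsRepBC_apply, ← LinearMap.baseChange_mul, ← LinearMap.baseChange_mul,
    heckeTorsNat_comm_galois]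

omit [NeZero N] in
/-- Trivial action on the torsion gives trivial action after base change. -/
theorem torsRepBC_eq_self_of (σ : AlgebraicClosure ℚ ≃ₐ[ℚ] AlgebraicClosure ℚ)
    (h : ∀ x : JZero N, (p : ℤ) • x = 0 → σ • x = x) (w : F ⊗[ZMod p] JTors N p) :
    torsRepBC N p F σ w = w := by
  have h1 : JZero.torsionGaloisRep N p σ = 1 := by
    refine LinearMap.ext fun x => Subtype.ext ?_
    rw [JZero.coe_torsionGaloisRep_apply]
    exact h x (Pic0.mem_torsion.mp x.2)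
  rw [torsRepBC_apply, h1, LinearMap.baseChange_one]
  rfl

set_option maxHeartbeats 1000000 in
/-- The Frobenius relation on the torsion gives the relation after base change. -/
theorem torsRepBC_quadratic {ℓ : ℕ} (hℓ : ℓ.Prime)
    (σ : AlgebraicClosure ℚ ≃ₐ[ℚ] AlgebraicClosure ℚ)
    (h : ∀ x : JZero N, (p : ℤ) • x = 0 →
      σ • σ • x - heckeOperatorBar N ⟨ℓ, hℓ⟩ (σ • x) + ℓ • x = 0)
    (w : F ⊗[ZMod p] JTors N p) :
    torsRepBC N p F σ (torsRepBC N p F σ w)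
      - (heckeTorsNat N p ℓ).baseChange F (torsRepBC N p F σ w) + (ℓ : F) • w = 0 := by
  have hx' : ∀ x : JTors N p, JZero.torsionGaloisRep N p σ (JZero.torsionGaloisRep N p σ x)
      - heckeTorsNat N p ℓ (JZero.torsionGaloisRep N p σ x) + ℓ • x = 0 := by
    intro x
    have hx := h x (Pic0.mem_torsion.mp x.2)
    have e : heckeTorsNat N p ℓ = heckeTors N p ⟨ℓ, hℓ⟩ := heckeTorsNat_of_prime N p hℓ
    rw [e]
    apply Subtype.ext
    rw [AddSubgroup.coe_add, AddSubgroup.coe_sub, AddSubgroup.coe_nsmul]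
    exact hx
  exact baseChange_quadratic (A := F) (JZero.torsionGaloisRep N p σ) (heckeTorsNat N p ℓ) ℓ
    hx' w

variable {N p F}
variable (g : CuspForm (CongruenceSubgroup.Gamma0 N) 2) (ψ : ↥(integralClosure ℤ ℂ) →+* F)

/-- **MODGLUE, concrete form.**  See the module docstring. -/
theorem hasEigenModule_of_JZero (hp : p ≠ 0)
    (hunr : ∀ ℓ : ℕ, ℓ.Prime → ¬ ℓ ∣ N * p →
      ∀ A : ValuationSubring (AlgebraicClosure ℚ), A.LiesOverPrime ℓ →
        ∀ σ ∈ A.inertiaSubgroupIn ℚ, ∀ x : JZero N, (p : ℤ) • x = 0 → σ • x = x)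
    (hfrob : ∀ (ℓ : ℕ) (hℓ : ℓ.Prime), ¬ ℓ ∣ N * p →
      ∀ A : ValuationSubring (AlgebraicClosure ℚ), A.LiesOverPrime ℓ →
        ∀ σ : AlgebraicClosure ℚ ≃ₐ[ℚ] AlgebraicClosure ℚ, A.IsFrobeniusAt σ ℓ →
          ∀ x : JZero N, (p : ℤ) • x = 0 →
            σ • σ • x - heckeOperatorBar N ⟨ℓ, hℓ⟩ (σ • x) + ℓ • x = 0)
    (v : F ⊗[ZMod p] JTors N p) (hv : v ≠ 0)
    (heig : ∀ (ℓ : ℕ) (hℓ : ℓ.Prime), ¬ ℓ ∣ N * p →
      ∃ a : ↥(integralClosure ℤ ℂ), (a : ℂ) = ModularFormClass.qCoeff g ℓ ∧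
        (heckeTors N p ⟨ℓ, hℓ⟩).baseChange F v = ψ a • v) :
    ∃ (M : Type) (_ : AddCommGroup M) (_ : Module F M)
      (ρ' : (AlgebraicClosure ℚ ≃ₐ[ℚ] AlgebraicClosure ℚ) →* Module.End F M),
      Nontrivial M ∧ GaloisFactorsThroughFiniteLevel ρ' ∧
      ∀ ℓ : ℕ, ℓ.Prime → ¬ ℓ ∣ N * p →
        ∃ a : ↥(integralClosure ℤ ℂ), (a : ℂ) = ModularFormClass.qCoeff g ℓ ∧
          ∀ A : ValuationSubring (AlgebraicClosure ℚ), A.LiesOverPrime ℓ →
            (∀ σ ∈ A.inertiaSubgroupIn ℚ, ρ' σ = 1) ∧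
            (∀ σ : AlgebraicClosure ℚ ≃ₐ[ℚ] AlgebraicClosure ℚ, A.IsFrobeniusAt σ ℓ →
              ρ' σ * ρ' σ - ψ a • ρ' σ + (ℓ : F) • (1 : Module.End F M) = 0) :=
  hasEigenModule_of_eigenvector (torsRepBC N p F) v g p ψ
    (fun ℓ => (heckeTorsNat N p ℓ).baseChange F)
    (fun ℓ σ => heckeBC_comm N p F ℓ σ)
    (exists_normal_finiteLevel_tensor N p F hp v)
    (fun ℓ hℓ hℓN A hA σ hσ w _ =>
      torsRepBC_eq_self_of N p F σ (hunr ℓ hℓ hℓN A hA σ hσ) w)
    (fun ℓ hℓ hℓN A hA σ hσ w _ =>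
      torsRepBC_quadratic N p F hℓ σ (hfrob ℓ hℓ hℓN A hA σ hσ) w)
    hv
    (fun ℓ hℓ hℓN => by
      obtain ⟨a, ha, hTa⟩ := heig ℓ hℓ hℓN
      exact ⟨a, ha, by rw [heckeTorsNat_of_prime N p hℓ]; exact hTa⟩)

end BaseChange

end Fermat.Agent.S29.H571
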