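import Mathlib
import Fermat.Agent.S29.H571.ModGlueJZero
import Fermat.Agent.S37.H99.Glue

/-!
# MODGLUE from reduction data (helper571, S29 route)

`hasEigenModule_of_redData`: the body of helper29's `HasEigenModule N g p F ψ` follows from

* reduction data `Fermat.Agent.S37.H99.RedData N A ℓ hℓ` at every `A` over every prime `ℓ ∤ N`
  (this is exactly what the S37 row constructs), and
* ONE nonzero eigenvector `v ∈ F ⊗[ZMod p] JZero N [p]` with
  `(1 ⊗ T_ℓ) v = ψ(a_ℓ) v` for all primes `ℓ ∤ N p`.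

Neither `HeckeOperatorsCommuteBar N` nor finiteness of `JZero N [p]` is needed.
-/

set_option autoImplicit false
set_option linter.style.haveILetI false

noncomputable section

namespace Fermat.Agent.S29.H571

open AlgebraicCurve ModularCurve TensorProduct Fermat.Agent.S37.H99

section Red

variable {N : ℕ} [NeZero N] {p : ℕ}

omit [NeZero N] in
theorem coprime_of_not_dvd_mul {ℓ : ℕ} (hℓ : ℓ.Prime) (h : ¬ ℓ ∣ N * p) : p.Coprime ℓ :=
  Nat.coprime_comm.mp ((Nat.Prime.coprime_iff_not_dvd hℓ).mpr fun hd => h (hd.mul_left N))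

omit [NeZero N] in
theorem galois_smul_nsmul (σ : AlgebraicClosure ℚ ≃ₐ[ℚ] AlgebraicClosure ℚ) (n : ℕ)
    (x : JZero N) : σ • (n • x) = n • (σ • x) :=
  map_nsmul (DistribSMul.toAddMonoidHom (JZero N) σ) n x

omit [NeZero N] in
theorem galois_nsmul_eq_zero (σ : AlgebraicClosure ℚ ≃ₐ[ℚ] AlgebraicClosure ℚ) {n : ℕ}
    {x : JZero N} (hx : n • x = 0) : n • (σ • x) = 0 := by
  rw [← galois_smul_nsmul, hx]
  exact smul_zero (A := JZero N) σ

/-- Inertia acts trivially on `p`-torsion, from reduction data. -/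
theorem inertia_trivial_of_redData {ℓ : ℕ} (hℓ : ℓ.Prime) (hℓN : ¬ ℓ ∣ N * p)
    {A : ValuationSubring (AlgebraicClosure ℚ)} (D : RedData N A ℓ hℓ)
    (σ : AlgebraicClosure ℚ ≃ₐ[ℚ] AlgebraicClosure ℚ) (hσ : σ ∈ A.inertiaSubgroupIn ℚ)
    (x : JZero N) (hx : (p : ℤ) • x = 0) : σ • x = x := by
  have hx' : p • x = 0 := by rwa [natCast_zsmul] at hx
  have h1 : D.red (σ • x - x) = 0 := by rw [map_sub, D.inertia σ hσ x, sub_self]
  have h2 : p • (σ • x - x) = 0 := by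
    rw [nsmul_sub, hx', sub_zero, galois_nsmul_eq_zero σ hx']
  exact sub_eq_zero.mp (D.inj_torsion p _ (coprime_of_not_dvd_mul hℓ hℓN) h2 h1)

/-- The Eichler–Shimura relation on `p`-torsion, from reduction data. -/
theorem frobenius_relation_of_redData {ℓ : ℕ} (hℓ : ℓ.Prime) (hℓN : ¬ ℓ ∣ N * p)
    {A : ValuationSubring (AlgebraicClosure ℚ)} (D : RedData N A ℓ hℓ)
    (σ : AlgebraicClosure ℚ ≃ₐ[ℚ] AlgebraicClosure ℚ) (hσ : A.IsFrobeniusAt σ ℓ)
    (x : JZero N) (hx : (p : ℤ) • x = 0) :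
    σ • σ • x - heckeOperatorBar N ⟨ℓ, hℓ⟩ (σ • x) + ℓ • x = 0 := by
  have hx' : p • x = 0 := by rwa [natCast_zsmul] at hx
  have hσx : p • (σ • x) = 0 := galois_nsmul_eq_zero σ hx'
  have hσσx : p • (σ • σ • x) = 0 := galois_nsmul_eq_zero σ hσx
  have h2 : p • (σ • σ • x - heckeOperatorBar N ⟨ℓ, hℓ⟩ (σ • x) + ℓ • x) = 0 := by
    rw [nsmul_add, nsmul_sub, hσσx, ← map_nsmul, hσx, map_zero, ← mul_nsmul, mul_comm,
      mul_nsmul, hx', nsmul_zero, sub_zero, add_zero]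
  exact D.inj_torsion p _ (coprime_of_not_dvd_mul hℓ hℓN) h2 (D.relation σ hσ x)

variable {F : Type} [Field F] [Algebra (ZMod p) F]
variable (g : CuspForm (CongruenceSubgroup.Gamma0 N) 2) (ψ : ↥(integralClosure ℤ ℂ) →+* F)

/-- **MODGLUE from reduction data.**  See the module docstring. -/
theorem hasEigenModule_of_redData (hp : p ≠ 0)
    (H : ∀ ℓ : ℕ, (hℓ : ℓ.Prime) → ¬ ℓ ∣ N →
      ∀ A : ValuationSubring (AlgebraicClosure ℚ), A.LiesOverPrime ℓ →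
        Nonempty (RedData N A ℓ hℓ))
    (v : F ⊗[ZMod p] JTors N p) (hv : v ≠ 0)
    (heig : ∀ (ℓ : ℕ) (hℓ : ℓ.Prime), ¬ ℓ ∣ N * p →
      ∃ a : ↥(integralClosure ℤ ℂ), (a : ℂ) = ModularFormClass.qCoeff g ℓ ∧
        (heckeTors N p ⟨ℓ, hℓ⟩).baseChange F v = ψ a • v) :
    ∃ (M : Type) (_ : AddCommGroup M) (_ : Module F M)
      (ρ' : (AlgebraicClosure ℚ ≃ₐ[ℚ] AlgebraicClosure ℚ) →* Module.End F M),
      Nontrivial M ∧ GaloisFactorsThroughFiniteLevel ρ' ∧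
      ∀ ℓ : ℕ, ℓ.Prime → ¬ ℓ ∣ N * p →
        ∃ a : ↥(integralClosure ℤ ℂ), (a : ℂ) = ModularFormClass.qCoeff g ℓ ∧
          ∀ A : ValuationSubring (AlgebraicClosure ℚ), A.LiesOverPrime ℓ →
            (∀ σ ∈ A.inertiaSubgroupIn ℚ, ρ' σ = 1) ∧
            (∀ σ : AlgebraicClosure ℚ ≃ₐ[ℚ] AlgebraicClosure ℚ, A.IsFrobeniusAt σ ℓ →
              ρ' σ * ρ' σ - ψ a • ρ' σ + (ℓ : F) • (1 : Module.End F M) = 0) := by
  refine hasEigenModule_of_JZero g ψ hp ?_ ?_ v hv heig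
  · intro ℓ hℓ hℓN A hA σ hσ x hx
    obtain ⟨D⟩ := H ℓ hℓ (fun h => hℓN (h.mul_right p)) A hA
    exact inertia_trivial_of_redData hℓ hℓN D σ hσ x hx
  · intro ℓ hℓ hℓN A hA σ hσ x hx
    obtain ⟨D⟩ := H ℓ hℓ (fun h => hℓN (h.mul_right p)) A hA
    exact frobenius_relation_of_redData hℓ hℓN D σ hσ x hx

end Red

end Fermat.Agent.S29.H571
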